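import Mathlib

/-!
# S16, upper bound at the prime 2 (helper1): interfaces

Goal (`NoUnitModEightStatement`): for a prime `p ≥ 5`, `p ≡ 3 mod 4`, there is no weight-2 modular
form on `Γ₀(p)` with integer q-expansion which is congruent to an odd constant modulo 8.

Route (findings #190): `Z := (H - s • F2) / 4` with `F2 = 1 + 12 G'` the weight-2 Eisenstein
series of level 3; all conjugates of `Z` under `Γ₀(3)` are `≡ G' + const mod 2`; the norm to
`Γ₀(3)` is `≡ G' (G' + c) ^ (m - 1) mod 2`, of degree `m` in `G'`, while every form of weight `2 m`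
on `Γ₀(3)` is a polynomial of degree `≤ 2 m / 3` in `G'` modulo 2.
-/

namespace Fermat.Agent.H1.S16L2

open UpperHalfPlane CongruenceSubgroup
open scoped MatrixGroups ModularForm Real

/-- `G' = ∑_{n ≥ 1} σ'(n) qⁿ`, `σ'(n)` = sum of the divisors of `n` prime to 3. -/
noncomputable def gPrime : PowerSeries ℤ :=
  PowerSeries.mk fun n => ∑ d ∈ n.divisors.filter (fun d => ¬ 3 ∣ d), (d : ℤ)

/-- Congruence modulo `2 A` of complex power series, `A` a subring of `ℂ`. -/
def CongrTwo (A : Subring ℂ) (f g : PowerSeries ℂ) : Prop :=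
  ∀ n, ∃ r ∈ A, PowerSeries.coeff n f - PowerSeries.coeff n g = 2 * r

/-- (EIS) the weight-2 Eisenstein series of level 3, `F2 = (3 E₂(3z) - E₂(z)) / 2 = 1 + 12 G'`. -/
def EisThreeStatement : Prop :=
  ∃ F2 : ModularForm (Gamma0 3) 2,
    qExpansion 1 (⇑F2) = (1 + 12 * gPrime).map (Int.castRingHom ℂ)

/-- (L3) modulo 2, a form of even weight `k` on `Γ₀(3)` with coefficients in a subring `A ⊆ ℂ` is a
polynomial of degree `≤ k / 3` in `G'` with coefficients in `A`. -/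
def LevelThreeStatement : Prop :=
  ∀ (k : ℕ), Even k → ∀ (A : Subring ℂ) (f : ModularForm (Gamma0 3) (k : ℤ)),
    (∀ n, PowerSeries.coeff n (qExpansion 1 (⇑f)) ∈ A) →
    ∃ c : ℕ → ℂ, (∀ i, c i ∈ A) ∧
      CongrTwo A (qExpansion 1 (⇑f))
        (∑ i ∈ Finset.range (k / 3 + 1),
          PowerSeries.C (c i) * (gPrime ^ i).map (Int.castRingHom ℂ))

/-- (TR) the other `SL₂(ℤ)`-conjugates of a weight-2 form `H` on `Γ₀(p)`:
`(H ∣ S T^j)(z) = -(1/p) (U_p H)((z + j)/p)`. Consequence of `M₂(SL₂(ℤ)) = 0` (trace to level one)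
and of the Fricke involution. -/
def ConjStatement : Prop :=
  ∀ (p : ℕ), p.Prime → ∀ (H : ModularForm (Gamma0 p) 2) (j : ℤ) (z : ℍ),
    HasSum (fun n : ℕ => -(p : ℂ)⁻¹ * PowerSeries.coeff (p * n) (qExpansion 1 (⇑H)) *
        Complex.exp (2 * π * Complex.I * n * ((z : ℂ) + j) / p))
      ((⇑H ∣[(2 : ℤ)] (ModularGroup.S * ModularGroup.T ^ j)) z)

/-- The target: no weight-2 form on `Γ₀(p)`, `p ≡ 3 mod 4`, is an odd constant modulo 8. -/
def NoUnitModEightStatement : Prop :=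
  ∀ (p : ℕ), p.Prime → 5 ≤ p → p % 4 = 3 →
    ∀ (H : ModularForm (Gamma0 p) 2) (a : ℕ → ℤ),
      (∀ n, PowerSeries.coeff n (qExpansion 1 (⇑H)) = (a n : ℂ)) →
      Odd (a 0) → (∀ n, 1 ≤ n → (8 : ℤ) ∣ a n) → False

end Fermat.Agent.H1.S16L2
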