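import Fermat.Agent.H1.S16L2.Translate

/-!
# S16, l = 2 block: the translates of `Z = (H - s F2) / 4` under `Γ₀(3)` (helper1)
-/

namespace Fermat.Agent.H1.S16L2

open UpperHalfPlane hiding I
open Function Complex CongruenceSubgroup SlashInvariantForm
open scoped MatrixGroups ModularForm Real Manifold

local notation "𝕢" => Function.Periodic.qParam

lemma gamma0_le_of_dvd {M N : ℕ} (h : M ∣ N) : Gamma0 N ≤ Gamma0 M := by
  intro γ hγ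
  rw [Gamma0_mem] at hγ ⊢
  rw [ZMod.intCast_zmod_eq_zero_iff_dvd] at hγ ⊢
  exact (Int.natCast_dvd_natCast.mpr h).trans hγ

lemma gamma0_map_le_of_dvd {M N : ℕ} (h : M ∣ N) :
    ((Gamma0 N : Subgroup SL(2, ℤ)) : Subgroup (GL (Fin 2) ℝ)) ≤
      ((Gamma0 M : Subgroup SL(2, ℤ)) : Subgroup (GL (Fin 2) ℝ)) :=
  Subgroup.map_mono (gamma0_le_of_dvd h)

/-- `Z = (H - s F2) / 4` as a modular form on `Γ₀(3p)`. -/
noncomputable def zForm (p : ℕ) (H : ModularForm (Gamma0 p) 2) (F2 : ModularForm (Gamma0 3) 2)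
    (s : ℂ) : ModularForm (Gamma0 (3 * p)) 2 :=
  (4 : ℂ)⁻¹ • (restrForm (gamma0_map_le_of_dvd (dvd_mul_left p 3)) H
    - s • restrForm (gamma0_map_le_of_dvd (dvd_mul_right 3 p)) F2)

lemma coe_zForm (p : ℕ) (H : ModularForm (Gamma0 p) 2) (F2 : ModularForm (Gamma0 3) 2) (s : ℂ) :
    ⇑(zForm p H F2 s) = (4 : ℂ)⁻¹ • (⇑H - s • ⇑F2) := rfl

/-- Slash of `Z` by an element of `SL₂(ℤ)` fixing `F2`. -/
lemma zForm_slash (p : ℕ) (H : ModularForm (Gamma0 p) 2) (F2 : ModularForm (Gamma0 3) 2) (s : ℂ)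
    (δ : SL(2, ℤ)) (hδ : δ ∈ Gamma0 3) :
    ⇑(zForm p H F2 s) ∣[(2 : ℤ)] δ = fun z => ((⇑H ∣[(2 : ℤ)] δ) z - s * F2 z) / 4 := by
  have hF : ⇑F2 ∣[(2 : ℤ)] δ = ⇑F2 :=
    SlashInvariantForm.slash_action_eqn F2 _ (Subgroup.mem_map_of_mem _ hδ)
  rw [coe_zForm, ModularForm.SL_smul_slash, sub_eq_add_neg, SlashAction.add_slash,
    SlashAction.neg_slash, ModularForm.SL_smul_slash, hF]
  ext z
  simp [div_eq_inv_mul, sub_eq_add_neg]

/-- An element of `SL₂(ℤ)` outside `Γ₀(p)` lies in `Γ₀(p) S T^j` for some `j`. -/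
lemma exists_mem_gamma0_mul (p : ℕ) [Fact p.Prime] (δ : SL(2, ℤ)) (hδ : δ ∉ Gamma0 p) :
    ∃ j : ℤ, δ * (ModularGroup.S * ModularGroup.T ^ j)⁻¹ ∈ Gamma0 p := by
  rw [Gamma0_mem] at hδ
  -- choose `j` with `c j ≡ d mod p`
  set c : ZMod p := ((δ 1 0 : ℤ) : ZMod p) with hc
  set d : ZMod p := ((δ 1 1 : ℤ) : ZMod p) with hd
  obtain ⟨j, hj⟩ : ∃ j : ℤ, (j : ZMod p) = d * c⁻¹ := ⟨(d * c⁻¹).val, by simp⟩
  refine ⟨j, ?_⟩
  rw [Gamma0_mem]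
  have hentry : (δ * (ModularGroup.S * ModularGroup.T ^ j)⁻¹) 1 0 = δ 1 0 * j - δ 1 1 := by
    rw [mul_inv_rev, ← zpow_neg]
    simp only [Matrix.SpecialLinearGroup.coe_mul, Matrix.SpecialLinearGroup.coe_inv,
      ModularGroup.coe_T_zpow, ModularGroup.coe_S, Matrix.adjugate_fin_two, Matrix.mul_apply,
      Fin.sum_univ_two]
    simp
    ring
  rw [hentry]
  push_cast
  rw [hj, ← hc, ← hd]
  have hc0 : c ≠ 0 := hδ
  field_simp
  ring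

end Fermat.Agent.H1.S16L2
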