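import Mathlib

/-!
# A leading-term lemma for polynomials in a power series of order one (helper1, S16 l = 2 block)
-/

namespace Fermat.Agent.H1.S16L2

open PowerSeries

/-- Coefficients of powers of a power series `g = q + ...`: `coeff i (g ^ j) = 0` for `i < j`. -/
lemma coeff_pow_eq_zero_of_lt {R : Type*} [CommRing R] (g : PowerSeries R)
    (hg0 : constantCoeff g = 0) {i j : ℕ} (hij : i < j) : coeff i (g ^ j) = 0 := by
  obtain ⟨g₁, rfl⟩ := X_dvd_iff.mpr hg0
  rw [mul_pow, coeff_X_pow_mul', if_neg (by omega)]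

/-- Coefficients of powers of a power series `g = q + ...`: `coeff i (g ^ i) = 1`. -/
lemma coeff_pow_self {R : Type*} [CommRing R] (g : PowerSeries R)
    (hg0 : constantCoeff g = 0) (hg1 : coeff 1 g = 1) (i : ℕ) : coeff i (g ^ i) = 1 := by
  obtain ⟨g₁, rfl⟩ := X_dvd_iff.mpr hg0
  have h1 : constantCoeff g₁ = 1 := by
    have := hg1
    rw [show (1 : ℕ) = 0 + 1 from rfl, coeff_succ_X_mul] at this
    simpa using this
  rw [mul_pow, coeff_X_pow_mul', if_pos le_rfl, Nat.sub_self, coeff_zero_eq_constantCoeff_apply,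
    map_pow, h1, one_pow]

/-- **Leading-term lemma.** Let `A` be a subring of `ℂ`, `g = q + ...` an integral power series and
`d 0, ..., d m ∈ A`. If all coefficients of `∑ d i * g ^ i` lie in `2 A`, then all `d i` lie in
`2 A`. -/
theorem coeff_mem_two_of_poly (A : Subring ℂ) (g : PowerSeries ℤ)
    (hg0 : constantCoeff g = 0) (hg1 : coeff 1 g = 1) (m : ℕ) (d : ℕ → ℂ)
    (h : ∀ n, ∃ r ∈ A, coeff n (∑ i ∈ Finset.range (m + 1),
      C (d i) * (g ^ i).map (Int.castRingHom ℂ)) = 2 * r) :
    ∀ i, i ≤ m → ∃ r ∈ A, d i = 2 * r := by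
  intro i
  induction i using Nat.strong_induction_on with
  | _ i ih =>
    intro him
    obtain ⟨r, hr, hcoeff⟩ := h i
    have hsum : coeff i (∑ j ∈ Finset.range (m + 1), C (d j) * (g ^ j).map (Int.castRingHom ℂ))
        = ∑ j ∈ Finset.range (m + 1), d j * ((coeff i (g ^ j) : ℤ) : ℂ) := by
      rw [map_sum]
      refine Finset.sum_congr rfl fun j _ => ?_
      rw [coeff_C_mul, coeff_map]
      rfl
    rw [hsum] at hcoeff
    -- split the sum: `j < i`, `j = i`, `j > i`
    have hsplit : ∑ j ∈ Finset.range (m + 1), d j * ((coeff i (g ^ j) : ℤ) : ℂ)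
        = (∑ j ∈ Finset.range i, d j * ((coeff i (g ^ j) : ℤ) : ℂ)) + d i := by
      have hsub : Finset.range (i + 1) ⊆ Finset.range (m + 1) := by
        intro j hj
        simp only [Finset.mem_range] at hj ⊢
        omega
      rw [← Finset.sum_subset hsub, Finset.sum_range_succ, coeff_pow_self g hg0 hg1]
      · simp
      · intro j hj hj'
        simp only [Finset.mem_range] at hj hj'
        rw [coeff_pow_eq_zero_of_lt g hg0 (by omega)]
        simp
    rw [hsplit] at hcoeff
    -- the lower terms are in `2 A`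
    have hlow : ∃ r' ∈ A, ∑ j ∈ Finset.range i, d j * ((coeff i (g ^ j) : ℤ) : ℂ) = 2 * r' := by
      have : ∀ j ∈ Finset.range i, ∃ r' ∈ A, d j * ((coeff i (g ^ j) : ℤ) : ℂ) = 2 * r' := by
        intro j hj
        simp only [Finset.mem_range] at hj
        obtain ⟨r', hr', hdj⟩ := ih j hj (by omega)
        exact ⟨r' * ((coeff i (g ^ j) : ℤ) : ℂ), A.mul_mem hr' (intCast_mem A _), by rw [hdj]; ring⟩
      choose! f hfA hf using this
      exact ⟨∑ j ∈ Finset.range i, f j, A.sum_mem fun j hj => hfA j hj, by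
        rw [Finset.mul_sum]; exact Finset.sum_congr rfl fun j hj => hf j hj⟩
    obtain ⟨r', hr', hlow'⟩ := hlow
    refine ⟨r - r', A.sub_mem hr hr', ?_⟩
    rw [hlow'] at hcoeff
    linear_combination hcoeff

end Fermat.Agent.H1.S16L2
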