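import Fermat.Agent.H1.S16L2.TransData
import Fermat.Agent.H1.S16L2.Triangular

/-!
# S16, l = 2 block: no weight-2 form on `Γ₀(p)`, `p ≡ 3 mod 4`, is an odd constant mod 8 (helper1)
-/

namespace Fermat.Agent.H1.S16L2

open UpperHalfPlane hiding I
open Function Complex CongruenceSubgroup SlashInvariantForm
open scoped MatrixGroups ModularForm Real Manifold

local notation "𝕢" => Function.Periodic.qParam

/-- The coset space `Γ₀(3) / Γ₀(3p)`. -/
abbrev cosetSpace (p : ℕ) : Type :=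
  (((Gamma0 3 : Subgroup SL(2, ℤ)) : Subgroup (GL (Fin 2) ℝ))) ⧸
    (((Gamma0 (3 * p) : Subgroup SL(2, ℤ)) : Subgroup (GL (Fin 2) ℝ))).subgroupOf
      ((Gamma0 3 : Subgroup SL(2, ℤ)) : Subgroup (GL (Fin 2) ℝ))

/-- Every translate of `Z` under `Γ₀(3)` is `(K - s F2) / 4` for a translate `K` of `H`. -/
lemma exists_transData_quotientFunc (hC : ConjStatement) (p : ℕ) (hp : p.Prime) (hp4 : p % 4 = 3)
    (H : ModularForm (Gamma0 p) 2) (F2 : ModularForm (Gamma0 3) 2) (a : ℕ → ℤ)
    (ha : ∀ n, PowerSeries.coeff n (qExpansion 1 (⇑H)) = (a n : ℂ))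
    (h8 : ∀ n, 1 ≤ n → (8 : ℤ) ∣ a n)
    (q : cosetSpace p) :
    ∃ (K : ℍ → ℂ) (e : ℂ), TransData p (a 0) K e ∧
      quotientFunc (zForm p H F2 (a 0)) q = fun z => (K z - (a 0 : ℂ) * F2 z) / 4 := by
  have : Fact p.Prime := ⟨hp⟩
  have : NeZero p := ⟨hp.ne_zero⟩
  induction q using Quotient.inductionOn with
  | h h =>
    obtain ⟨γ, hγ, hγh⟩ := h.2
    have hinv : (h : GL (Fin 2) ℝ)⁻¹ = Matrix.SpecialLinearGroup.mapGL ℝ (γ⁻¹ : SL(2, ℤ)) := by
      rw [← hγh, map_inv]
    have hδ : γ⁻¹ ∈ Gamma0 3 := inv_mem hγ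
    have hq : quotientFunc (zForm p H F2 (a 0)) ⟦h⟧
        = ⇑(zForm p H F2 (a 0)) ∣[(2 : ℤ)] (γ⁻¹ : SL(2, ℤ)) := by
      rw [quotientFunc_mk, hinv]
      rfl
    rw [hq, zForm_slash p H F2 (a 0) γ⁻¹ hδ]
    by_cases hmem : γ⁻¹ ∈ Gamma0 p
    · refine ⟨⇑H, 0, transData_self p H a ha h8, ?_⟩
      have : ⇑H ∣[(2 : ℤ)] (γ⁻¹ : SL(2, ℤ)) = ⇑H :=
        SlashInvariantForm.slash_action_eqn H _ (Subgroup.mem_map_of_mem _ hmem)
      rw [this]
    · obtain ⟨j, hj⟩ := exists_mem_gamma0_mul p γ⁻¹ hmem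
      obtain ⟨e, he⟩ := transData_conj hC p hp hp4 H a ha h8 j
      refine ⟨_, e, he, ?_⟩
      have hsplit : (γ⁻¹ : SL(2, ℤ)) = (γ⁻¹ * (ModularGroup.S * ModularGroup.T ^ j)⁻¹) *
          (ModularGroup.S * ModularGroup.T ^ j) := by group
      have : ⇑H ∣[(2 : ℤ)] (γ⁻¹ : SL(2, ℤ))
          = ⇑H ∣[(2 : ℤ)] (ModularGroup.S * ModularGroup.T ^ j) := by
        conv_lhs => rw [hsplit]
        rw [SlashAction.slash_mul]
        congr 1
        exact SlashInvariantForm.slash_action_eqn H _ (Subgroup.mem_map_of_mem _ hj)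
      rw [this]

lemma coeff_one_gPrime : PowerSeries.coeff 1 gPrime = 1 := by
  simp only [gPrime, PowerSeries.coeff_mk, Nat.divisors_one]
  decide

lemma constantCoeff_gPrime : PowerSeries.constantCoeff gPrime = 0 := by
  rw [← PowerSeries.coeff_zero_eq_constantCoeff_apply]; exact coeff_zero_gPrime


/-- A product of monic linear factors `G + e q`, expanded in powers of `G`: the coefficients are
2-integral, and the leading one is `1`. -/
lemma prod_add_C_expand {ι : Type*} [Fintype ι] (G : PowerSeries ℂ) (e : ι → ℂ)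
    (he : ∀ q, e q ∈ twoIntegral) :
    ∃ P : ℕ → ℂ, (∀ i, P i ∈ twoIntegral) ∧ P (Fintype.card ι) = 1 ∧
      ∏ q, (G + PowerSeries.C (e q))
        = ∑ i ∈ Finset.range (Fintype.card ι + 1), PowerSeries.C (P i) * G ^ i := by
  classical
  let P₀ : Polynomial twoIntegral := ∏ q, (Polynomial.X + Polynomial.C ⟨e q, he q⟩)
  let Q : Polynomial ℂ := P₀.map twoIntegral.subtype
  have hQ : Q = ∏ q, (Polynomial.X + Polynomial.C (e q)) := by
    simp only [Q, P₀, Polynomial.map_prod, Polynomial.map_add, Polynomial.map_X, Polynomial.map_C]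
    rfl
  have hmonic : Q.Monic := by
    rw [hQ]
    exact Polynomial.monic_prod_of_monic _ _ fun q _ => Polynomial.monic_X_add_C (e q)
  have hdeg : Q.natDegree = Fintype.card ι := by
    rw [hQ, Polynomial.natDegree_prod_of_monic _ _ fun q _ => Polynomial.monic_X_add_C (e q)]
    simp
  refine ⟨fun i => Q.coeff i, fun i => ?_, ?_, ?_⟩
  · simp only [Q, Polynomial.coeff_map]
    exact (P₀.coeff i).2
  · rw [← hdeg]
    exact hmonic.coeff_natDegree
  · have h1 : Polynomial.eval₂ (PowerSeries.C : ℂ →+* PowerSeries ℂ) G Q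
        = ∏ q, (G + PowerSeries.C (e q)) := by
      rw [hQ, Polynomial.eval₂_finsetProd]
      refine Finset.prod_congr rfl fun q _ => ?_
      rw [Polynomial.eval₂_add, Polynomial.eval₂_X, Polynomial.eval₂_C]
    rw [← h1, Polynomial.eval₂_eq_sum_range, hdeg]

/-- **S16, upper bound at `l = 2`.** -/
theorem noUnitModEight (hE : EisThreeStatement) (hL : LevelThreeStatement) (hC : ConjStatement) :
    NoUnitModEightStatement := by
  intro p hp _hp5 hp4 H a ha h0 h8
  obtain ⟨F2, hF2exp⟩ := hE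
  have : NeZero p := ⟨hp.ne_zero⟩
  have : NeZero (3 * p) := ⟨by have := hp.pos; omega⟩
  have hp0 : 0 < p := hp.pos
  have hF2 : Nice 1 (⇑F2) := nice_one_of_modularForm 3 F2
  have : (((Gamma0 (3 * p) : Subgroup SL(2, ℤ)) : Subgroup (GL (Fin 2) ℝ))).IsFiniteRelIndex
      ((Gamma0 3 : Subgroup SL(2, ℤ)) : Subgroup (GL (Fin 2) ℝ)) :=
    Subgroup.isFiniteRelIndex_of_le_right _ (L := 𝒮ℒ) (Subgroup.map_le_range _ _)
  let _ : Fintype (cosetSpace p) := Fintype.ofFinite _
  set Z := zForm p H F2 (a 0) with hZ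
  set N := ModularForm.norm ((Gamma0 3 : Subgroup SL(2, ℤ)) : Subgroup (GL (Fin 2) ℝ)) Z with hN
  -- data for each coset
  choose K e hKe hq using exists_transData_quotientFunc hC p hp hp4 H F2 a ha h8
  have htc := fun q => translate_congr p hp0 (K q) (⇑F2) (a 0) h0 (hKe q).nice hF2 hF2exp (e q)
    (hKe q).c0 (hKe q).cn
  -- the norm machine
  have hNcoe : ⇑N = ∏ q : cosetSpace p, quotientFunc Z q := ModularForm.coe_norm _ Z
  have hNnice : Nice 1 (∏ q : cosetSpace p, quotientFunc Z q) := by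
    rw [← hNcoe]; exact nice_one_of_modularForm 3 N
  have hmach := prod_congr_machine Finset.univ (fun q : cosetSpace p => quotientFunc Z q)
    (fun q => shiftG (⇑F2) (e q)) p hp0 hNnice
    (fun q _ => nice_shiftG hF2 (e q))
    (fun q _ => shiftG_mem_intSeries hF2 hF2exp (hKe q).he)
    (fun q _ => by rw [hq q]; exact (htc q).1) (fun q _ => by rw [hq q]; exact (htc q).2)
  rw [← hNcoe] at hmach
  simp only [qExpansion_shiftG hF2 hF2exp] at hmach
  -- expand the product
  obtain ⟨P, hPint, hPlead, hPexp⟩ :=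
    prod_add_C_expand (gPrime.map (Int.castRingHom ℂ)) e (fun q => (hKe q).he)
  rw [hPexp] at hmach
  set m := Fintype.card (cosetSpace p) with hm
  have hm1 : 1 ≤ m := Fintype.card_pos
  -- the level-3 structure
  have hRHS : (∑ i ∈ Finset.range (m + 1),
      PowerSeries.C (P i) * gPrime.map (Int.castRingHom ℂ) ^ i) ∈ intSeries := by
    refine intSeries.sum_mem fun i _ => intSeries.mul_mem ?_ (intSeries.pow_mem ?_ i)
    · intro n
      rw [PowerSeries.coeff_C]
      split_ifs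
      · exact hPint i
      · exact twoIntegral.zero_mem
    · intro n
      rw [PowerSeries.coeff_map]
      exact intCast_mem_twoIntegral _
  have hNint : ∀ n, PowerSeries.coeff n (qExpansion 1 (⇑N)) ∈ twoIntegral :=
    hmach.mem_left hRHS
  have hwt : (2 : ℤ) * (Nat.card (cosetSpace p)) = ((2 * m : ℕ) : ℤ) := by
    rw [Nat.card_eq_fintype_card]; push_cast; rfl
  obtain ⟨c, hcA, hcong⟩ := hL (2 * m) (even_two_mul m) twoIntegral (ModularForm.mcast hwt N)
    (fun n => hNint n)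
  -- combine the two congruences
  set d : ℕ → ℂ := fun i => P i - (if i < 2 * m / 3 + 1 then c i else 0) with hd
  have hsub : Finset.range (2 * m / 3 + 1) ⊆ Finset.range (m + 1) := by
    intro i hi
    simp only [Finset.mem_range] at hi ⊢
    omega
  have h2 : ∑ i ∈ Finset.range (2 * m / 3 + 1),
        PowerSeries.C (c i) * (gPrime ^ i).map (Int.castRingHom ℂ)
      = ∑ i ∈ Finset.range (m + 1), PowerSeries.C (if i < 2 * m / 3 + 1 then c i else 0)
          * (gPrime ^ i).map (Int.castRingHom ℂ) := by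
    rw [← Finset.sum_subset hsub]
    · refine Finset.sum_congr rfl fun i hi => ?_
      rw [if_pos (Finset.mem_range.mp hi)]
    · intro i _ hi
      rw [if_neg (fun h => hi (Finset.mem_range.mpr h))]
      simp
  have hsum : ∑ i ∈ Finset.range (m + 1),
      PowerSeries.C (d i) * (gPrime ^ i).map (Int.castRingHom ℂ)
      = (∑ i ∈ Finset.range (m + 1),
          PowerSeries.C (P i) * gPrime.map (Int.castRingHom ℂ) ^ i)
        - ∑ i ∈ Finset.range (2 * m / 3 + 1),
          PowerSeries.C (c i) * (gPrime ^ i).map (Int.castRingHom ℂ) := by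
    rw [h2, ← Finset.sum_sub_distrib]
    refine Finset.sum_congr rfl fun i _ => ?_
    rw [hd]
    simp only [map_sub, sub_mul, map_pow]
  have hfinal : ∀ n, ∃ r ∈ twoIntegral, PowerSeries.coeff n (∑ i ∈ Finset.range (m + 1),
      PowerSeries.C (d i) * (gPrime ^ i).map (Int.castRingHom ℂ)) = 2 * r := by
    intro n
    obtain ⟨r1, hr1, e1⟩ := hmach.coeff n
    obtain ⟨r2, hr2, e2⟩ := hcong n
    refine ⟨r2 - r1, twoIntegral.sub_mem hr2 hr1, ?_⟩
    rw [hsum, map_sub]
    have hcast : qExpansion 1 (⇑(ModularForm.mcast hwt N)) = qExpansion 1 (⇑N) := rfl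
    rw [hcast] at e2
    linear_combination e2 - e1
  obtain ⟨r, hr, hdm⟩ := coeff_mem_two_of_poly twoIntegral gPrime constantCoeff_gPrime
    coeff_one_gPrime m d hfinal m le_rfl
  have hdm1 : d m = 1 := by
    rw [hd]
    simp only
    rw [hPlead, if_neg (by omega)]
    ring
  exact one_ne_two_mul_twoIntegral hr (hdm1 ▸ hdm)

end Fermat.Agent.H1.S16L2
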