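import Mathlib

/-!
# q-expansion toolkit for periodic holomorphic functions (helper1, S16 l = 2 block)
-/

namespace Fermat.Agent.H1.S16L2

open UpperHalfPlane hiding I
open Function Complex
open scoped MatrixGroups ModularForm Real Manifold

local notation "𝕢" => Function.Periodic.qParam

/-- `f` is holomorphic on `ℍ`, `h`-periodic and bounded at `i∞`. -/
structure Nice (h : ℝ) (f : ℍ → ℂ) : Prop where
  per : Periodic (f ∘ ofComplex) h
  hol : MDiff f
  bdd : IsBoundedAtImInfty f

namespace Nice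

variable {h : ℝ} {f g : ℍ → ℂ}

lemma analyticAt (hh : 0 < h) (hf : Nice h f) : AnalyticAt ℂ (cuspFunction h f) 0 :=
  analyticAt_cuspFunction_zero hh hf.per hf.hol hf.bdd

lemma hasSum (hh : 0 < h) (hf : Nice h f) (τ : ℍ) :
    HasSum (fun m : ℕ ↦ (qExpansion h f).coeff m • 𝕢 h τ ^ m) (f τ) :=
  hasSum_qExpansion hh hf.per hf.hol hf.bdd τ

lemma const (h : ℝ) (c : ℂ) : Nice h (fun _ => c) where
  per := fun _ => rfl
  hol := mdifferentiable_const
  bdd := Filter.const_boundedAtFilter _ c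

lemma add (hf : Nice h f) (hg : Nice h g) : Nice h (f + g) where
  per := hf.per.add hg.per
  hol := hf.hol.add hg.hol
  bdd := hf.bdd.add hg.bdd

lemma neg (hf : Nice h f) : Nice h (-f) where
  per := fun w => by simpa using congrArg Neg.neg (hf.per w)
  hol := hf.hol.neg
  bdd := hf.bdd.neg

lemma sub (hf : Nice h f) (hg : Nice h g) : Nice h (f - g) where
  per := hf.per.sub hg.per
  hol := hf.hol.sub hg.hol
  bdd := hf.bdd.sub hg.bdd

lemma mul (hf : Nice h f) (hg : Nice h g) : Nice h (f * g) where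
  per := hf.per.mul hg.per
  hol := hf.hol.mul hg.hol
  bdd := hf.bdd.mul hg.bdd

lemma smul (c : ℂ) (hf : Nice h f) : Nice h (c • f) := by
  have : c • f = (fun _ => c) * f := by ext; simp
  rw [this]
  exact (const h c).mul hf

lemma one (h : ℝ) : Nice h (1 : ℍ → ℂ) := const h 1

lemma prod {ι : Type*} (s : Finset ι) (F : ι → ℍ → ℂ) (hF : ∀ i ∈ s, Nice h (F i)) :
    Nice h (∏ i ∈ s, F i) := by
  classical
  induction s using Finset.induction_on with
  | empty => simpa using one h
  | insert a s ha ih =>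
    rw [Finset.prod_insert ha]
    exact (hF a (Finset.mem_insert_self a s)).mul
      (ih fun i hi => hF i (Finset.mem_insert_of_mem hi))

lemma pow (hf : Nice h f) (n : ℕ) : Nice h (f ^ n) := by
  induction n with
  | zero => simpa using one h
  | succ n ih => rw [pow_succ]; exact ih.mul hf

end Nice

lemma qExpansion_prod {h : ℝ} (hh : 0 < h) {ι : Type*} (s : Finset ι) (F : ι → ℍ → ℂ)
    (hF : ∀ i ∈ s, Nice h (F i)) :
    qExpansion h (∏ i ∈ s, F i) = ∏ i ∈ s, qExpansion h (F i) := by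
  classical
  induction s using Finset.induction_on with
  | empty => simpa using qExpansion_one h
  | insert a s ha ih =>
    rw [Finset.prod_insert ha, Finset.prod_insert ha,
      qExpansion_mul ((hF a (Finset.mem_insert_self a s)).analyticAt hh)
        ((Nice.prod s F fun i hi => hF i (Finset.mem_insert_of_mem hi)).analyticAt hh),
      ih fun i hi => hF i (Finset.mem_insert_of_mem hi)]

lemma qParam_add_period {h : ℝ} (hh : h ≠ 0) (w : ℂ) : 𝕢 h (w + h) = 𝕢 h w := by
  have hh' : (h : ℂ) ≠ 0 := by exact_mod_cast hh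
  simp only [Function.Periodic.qParam]
  have : 2 * (π : ℂ) * I * (w + h) / h = 2 * π * I * w / h + 2 * π * I := by
    field_simp
  rw [this, Complex.exp_add, Complex.exp_two_pi_mul_I, mul_one]

/-- A holomorphic function given everywhere by a convergent expansion in `𝕢 h` is `Nice h`. -/
lemma Nice.of_hasSum {h : ℝ} (hh : 0 < h) {f : ℍ → ℂ} (hol : MDiff f) {c : ℕ → ℂ}
    (hf : ∀ τ : ℍ, HasSum (fun m ↦ c m • 𝕢 h τ ^ m) (f τ)) : Nice h f where
  per := by
    intro w
    by_cases! hw : 0 < im w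
    · have hw' : 0 < im (w + h) := by simp [hw]
      simp only [comp_apply, ofComplex_apply_of_im_pos hw', ofComplex_apply_of_im_pos hw]
      refine (hf ⟨w + h, hw'⟩).unique ?_
      have := hf ⟨w, hw⟩
      convert this using 4
      exact qParam_add_period hh.ne' w
    · have : im (w + h) ≤ 0 := by simpa using hw
      simp [ofComplex_apply_of_im_nonpos this, ofComplex_apply_of_im_nonpos hw]
  hol := hol
  bdd := isBoundedAtImInfty_of_hasSum_qExpansion hh hf

/-- The coefficients of a `Nice` function are determined by any convergent expansion. -/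
lemma Nice.coeff_eq {h : ℝ} (hh : 0 < h) {f : ℍ → ℂ} (hN : Nice h f) {c : ℕ → ℂ}
    (hf : ∀ τ : ℍ, HasSum (fun m ↦ c m • 𝕢 h τ ^ m) (f τ)) (m : ℕ) :
    (qExpansion h f).coeff m = c m := by
  let _ : FunLike (ℍ → ℂ) ℍ ℂ := ⟨fun f => f, fun _ _ h => h⟩
  exact (qExpansion_coeff_unique (F := ℍ → ℂ) f hh (hN.analyticAt hh) hf m).symm

lemma qParam_one_eq_pow (p : ℕ) (hp : 0 < p) (z : ℂ) :
    𝕢 (1 : ℝ) z = 𝕢 (p : ℝ) z ^ p := by
  have hp0 : (p : ℂ) ≠ 0 := by exact_mod_cast hp.ne'
  simp only [Function.Periodic.qParam, ← Complex.exp_nat_mul]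
  congr 1
  push_cast
  field_simp

/-- A 1-periodic nice function, expanded with respect to the period `p`. -/
lemma Nice.hasSum_nat_period {f : ℍ → ℂ} (hf : Nice 1 f) (p : ℕ) (hp : 0 < p) (τ : ℍ) :
    HasSum (fun n : ℕ ↦ (if p ∣ n then (qExpansion 1 f).coeff (n / p) else 0) • 𝕢 (p : ℝ) τ ^ n)
      (f τ) := by
  have h1 := hf.hasSum one_pos τ
  have hinj : Function.Injective (fun m : ℕ => p * m) := fun a b hab =>
    Nat.eq_of_mul_eq_mul_left hp hab
  rw [← hinj.hasSum_iff]
  · convert h1 using 2 with m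
    simp only [comp_apply, dvd_mul_right, if_true, Nat.mul_div_cancel_left _ hp]
    rw [qParam_one_eq_pow p hp, ← pow_mul]
  · intro n hn
    have : ¬ p ∣ n := fun ⟨m, hm⟩ => hn ⟨m, hm.symm⟩
    simp [this]

lemma Nice.of_one {f : ℍ → ℂ} (hf : Nice 1 f) (p : ℕ) (hp : 0 < p) : Nice (p : ℝ) f :=
  Nice.of_hasSum (by exact_mod_cast hp) hf.hol (hf.hasSum_nat_period p hp)

lemma Nice.coeff_nat_period {f : ℍ → ℂ} (hf : Nice 1 f) (p : ℕ) (hp : 0 < p) (n : ℕ) :
    (qExpansion (p : ℝ) f).coeff n = if p ∣ n then (qExpansion 1 f).coeff (n / p) else 0 :=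
  (hf.of_one p hp).coeff_eq (by exact_mod_cast hp) (hf.hasSum_nat_period p hp) n

end Fermat.Agent.H1.S16L2
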