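import Mathlib

/-!
# The ring of 2-integral algebraic numbers (helper1, S16 l = 2 block)
-/

namespace Fermat.Agent.H1.S16L2

/-- The subring of `ℂ` of 2-integral algebraic numbers: `x` such that `M * x` is an algebraic
integer for some odd natural number `M`. -/
def twoIntegral : Subring ℂ where
  carrier := {x | ∃ M : ℕ, Odd M ∧ IsIntegral ℤ ((M : ℂ) * x)}
  mul_mem' := by
    rintro x y ⟨M, hM, hx⟩ ⟨M', hM', hy⟩
    refine ⟨M * M', hM.mul hM', ?_⟩
    have : ((M * M' : ℕ) : ℂ) * (x * y) = ((M : ℂ) * x) * ((M' : ℂ) * y) := by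
      push_cast; ring
    rw [this]
    exact hx.mul hy
  one_mem' := ⟨1, odd_one, by simpa using isIntegral_one⟩
  add_mem' := by
    rintro x y ⟨M, hM, hx⟩ ⟨M', hM', hy⟩
    refine ⟨M * M', hM.mul hM', ?_⟩
    have : ((M * M' : ℕ) : ℂ) * (x + y) = (M' : ℤ) * ((M : ℂ) * x) + (M : ℤ) * ((M' : ℂ) * y) := by
      push_cast; ring
    rw [this]
    exact ((isIntegral_algebraMap (R := ℤ) (A := ℂ) (x := (M' : ℤ))).mul hx).add
      ((isIntegral_algebraMap (R := ℤ) (A := ℂ) (x := (M : ℤ))).mul hy)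
  zero_mem' := ⟨1, odd_one, by simpa using isIntegral_zero⟩
  neg_mem' := by
    rintro x ⟨M, hM, hx⟩
    refine ⟨M, hM, ?_⟩
    have : (M : ℂ) * (-x) = -((M : ℂ) * x) := by ring
    rw [this]
    exact hx.neg

lemma mem_twoIntegral {x : ℂ} :
    x ∈ twoIntegral ↔ ∃ M : ℕ, Odd M ∧ IsIntegral ℤ ((M : ℂ) * x) := Iff.rfl

lemma isIntegral_mem_twoIntegral {x : ℂ} (hx : IsIntegral ℤ x) : x ∈ twoIntegral :=
  ⟨1, odd_one, by simpa using hx⟩

lemma intCast_mem_twoIntegral (n : ℤ) : (n : ℂ) ∈ twoIntegral :=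
  intCast_mem twoIntegral n

/-- The inverse of an odd natural number is 2-integral. -/
lemma inv_odd_mem_twoIntegral {M : ℕ} (hM : Odd M) : ((M : ℂ))⁻¹ ∈ twoIntegral := by
  refine ⟨M, hM, ?_⟩
  have hM0 : (M : ℂ) ≠ 0 := by
    have : M ≠ 0 := fun h => by simp [h] at hM
    exact_mod_cast this
  rw [mul_inv_cancel₀ hM0]
  exact isIntegral_one

/-- A complex number with `x ^ n = 1`, `n > 0`, is 2-integral. -/
lemma rootOfUnity_mem_twoIntegral {x : ℂ} {n : ℕ} (hn : 0 < n) (hx : x ^ n = 1) :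
    x ∈ twoIntegral :=
  isIntegral_mem_twoIntegral (IsIntegral.of_pow hn (hx ▸ isIntegral_one))

/-- `2` is not invertible in the ring of 2-integral algebraic numbers. -/
lemma one_ne_two_mul_twoIntegral {r : ℂ} (hr : r ∈ twoIntegral) : (1 : ℂ) ≠ 2 * r := by
  intro h
  obtain ⟨M, hM, hint⟩ := hr
  have hr' : r = 1 / 2 := by
    have : (2 : ℂ) ≠ 0 := two_ne_zero
    field_simp
    linear_combination -h
  -- `M / 2` is a rational algebraic integer, hence an integer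
  have h1 : IsIntegral ℤ (((M : ℚ) / 2 : ℚ) : ℂ) := by
    have : (((M : ℚ) / 2 : ℚ) : ℂ) = (M : ℂ) * r := by
      rw [hr']; push_cast; ring
    rw [this]; exact hint
  have h2 : IsIntegral ℤ ((M : ℚ) / 2 : ℚ) := by
    have := h1
    rwa [show (((M : ℚ) / 2 : ℚ) : ℂ) = algebraMap ℚ ℂ ((M : ℚ) / 2) from rfl,
      isIntegral_algebraMap_iff (algebraMap ℚ ℂ).injective] at this
  obtain ⟨z, hz⟩ := IsIntegrallyClosed.isIntegral_iff.mp h2
  have hz' : (z : ℚ) = (M : ℚ) / 2 := by simpa using hz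
  have : (2 * z : ℤ) = (M : ℤ) := by
    have : ((2 * z : ℤ) : ℚ) = ((M : ℤ) : ℚ) := by push_cast; rw [hz']; ring
    exact_mod_cast this
  obtain ⟨k, hk⟩ := hM
  omega

end Fermat.Agent.H1.S16L2
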