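import Fermat.Agent.H1.S16L2.Interfaces
import Fermat.Agent.H1.S16L2.QExp
import Fermat.Agent.H1.S16L2.TwoIntegral
import Fermat.Prelude.Thm_CongruenceSubgroup_one_mem_strictPeriods_Gamma0

/-!
# S16, l = 2 block: modular forms as `Nice` functions, the coefficient ring of power series
(helper1)
-/

namespace Fermat.Agent.H1.S16L2

open UpperHalfPlane hiding I
open Function Complex CongruenceSubgroup
open scoped MatrixGroups ModularForm Real Manifold

local notation "𝕢" => Function.Periodic.qParam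

/-- Restriction of a modular form to a smaller group. -/
def restrForm {Γ Γ' : Subgroup (GL (Fin 2) ℝ)} (h : Γ' ≤ Γ) {k : ℤ} (f : ModularForm Γ k) :
    ModularForm Γ' k where
  toFun := f
  slash_action_eq' γ hγ := f.slash_action_eq' γ (h hγ)
  holo' := f.holo'
  bdd_at_cusps' hc := f.bdd_at_cusps' (hc.mono h)

@[simp] lemma coe_restrForm {Γ Γ' : Subgroup (GL (Fin 2) ℝ)} (h : Γ' ≤ Γ) {k : ℤ}
    (f : ModularForm Γ k) : ⇑(restrForm h f) = ⇑f := rfl

/-- Modular forms on `Γ₀(N)` are `Nice 1`. -/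
lemma nice_one_of_modularForm (N : ℕ) [NeZero N] {k : ℤ} (f : ModularForm (Gamma0 N) k) :
    Nice 1 (⇑f) where
  per := by
    have := SlashInvariantFormClass.periodic_comp_ofComplex f
      (CongruenceSubgroup.one_mem_strictPeriods_Gamma0 N)
    simpa using this
  hol := ModularFormClass.holo f
  bdd := ModularFormClass.bdd_at_infty f

/-- Power series with 2-integral coefficients. -/
def intSeries : Subring (PowerSeries ℂ) where
  carrier := {P | ∀ n, PowerSeries.coeff n P ∈ twoIntegral}
  mul_mem' := by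
    intro P Q hP hQ n
    rw [PowerSeries.coeff_mul]
    exact twoIntegral.sum_mem fun x _ => twoIntegral.mul_mem (hP _) (hQ _)
  one_mem' := by
    intro n
    rw [PowerSeries.coeff_one]
    split_ifs
    · exact twoIntegral.one_mem
    · exact twoIntegral.zero_mem
  add_mem' := by
    intro P Q hP hQ n
    rw [map_add]
    exact twoIntegral.add_mem (hP n) (hQ n)
  zero_mem' := by
    intro n
    rw [map_zero]
    exact twoIntegral.zero_mem
  neg_mem' := by
    intro P hP n
    rw [map_neg]
    exact twoIntegral.neg_mem (hP n)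

lemma mem_intSeries {P : PowerSeries ℂ} :
    P ∈ intSeries ↔ ∀ n, PowerSeries.coeff n P ∈ twoIntegral := Iff.rfl

/-- Congruence modulo `2` in the ring of power series with 2-integral coefficients. -/
def CongrTwoInt (P Q : PowerSeries ℂ) : Prop := ∃ R ∈ intSeries, P - Q = 2 * R

lemma CongrTwoInt.refl (P : PowerSeries ℂ) : CongrTwoInt P P :=
  ⟨0, intSeries.zero_mem, by simp⟩

lemma CongrTwoInt.mul {P Q P' Q' : PowerSeries ℂ} (h : CongrTwoInt P Q) (h' : CongrTwoInt P' Q')
    (hQ : Q ∈ intSeries) (hP' : P' ∈ intSeries) : CongrTwoInt (P * P') (Q * Q') := by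
  obtain ⟨R, hR, e⟩ := h
  obtain ⟨R', hR', e'⟩ := h'
  refine ⟨R * P' + Q * R', intSeries.add_mem (intSeries.mul_mem hR hP') (intSeries.mul_mem hQ hR'),
    ?_⟩
  linear_combination P' * e + Q * e'

lemma CongrTwoInt.mem_left {P Q : PowerSeries ℂ} (h : CongrTwoInt P Q) (hQ : Q ∈ intSeries) :
    P ∈ intSeries := by
  obtain ⟨R, hR, e⟩ := h
  have : P = Q + 2 * R := by linear_combination e
  rw [this]
  exact intSeries.add_mem hQ (intSeries.mul_mem (ofNat_mem intSeries 2) hR)

lemma CongrTwoInt.prod {ι : Type*} (s : Finset ι) (P Q : ι → PowerSeries ℂ)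
    (h : ∀ i ∈ s, CongrTwoInt (P i) (Q i)) (hQ : ∀ i ∈ s, Q i ∈ intSeries) :
    CongrTwoInt (∏ i ∈ s, P i) (∏ i ∈ s, Q i) := by
  classical
  induction s using Finset.induction_on with
  | empty => simpa using CongrTwoInt.refl 1
  | insert a s ha ih =>
    rw [Finset.prod_insert ha, Finset.prod_insert ha]
    have hs := ih (fun i hi => h i (Finset.mem_insert_of_mem hi))
      (fun i hi => hQ i (Finset.mem_insert_of_mem hi))
    have hQs : ∏ i ∈ s, Q i ∈ intSeries :=
      intSeries.prod_mem fun i hi => hQ i (Finset.mem_insert_of_mem hi)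
    exact (h a (Finset.mem_insert_self a s)).mul hs (hQ a (Finset.mem_insert_self a s))
      (hs.mem_left hQs)

lemma CongrTwoInt.coeff {P Q : PowerSeries ℂ} (h : CongrTwoInt P Q) (n : ℕ) :
    ∃ r ∈ twoIntegral, PowerSeries.coeff n P - PowerSeries.coeff n Q = 2 * r := by
  obtain ⟨R, hR, e⟩ := h
  refine ⟨PowerSeries.coeff n R, hR n, ?_⟩
  have := congrArg (PowerSeries.coeff n) e
  rw [map_sub] at this
  rw [this]
  have h2 : (2 : PowerSeries ℂ) = PowerSeries.C (2 : ℂ) := (map_ofNat _ 2).symm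
  rw [h2, PowerSeries.coeff_C_mul]

lemma congrTwoInt_of_coeff {P Q : PowerSeries ℂ}
    (h : ∀ n, ∃ r ∈ twoIntegral, PowerSeries.coeff n P - PowerSeries.coeff n Q = 2 * r) :
    CongrTwoInt P Q := by
  choose r hr e using h
  refine ⟨PowerSeries.mk r, fun n => by simpa using hr n, ?_⟩
  ext n
  have h2 : (2 : PowerSeries ℂ) = PowerSeries.C (2 : ℂ) := (map_ofNat _ 2).symm
  rw [map_sub, e n, h2, PowerSeries.coeff_C_mul, PowerSeries.coeff_mk]

end Fermat.Agent.H1.S16L2
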