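import Fermat.Agent.H1.S16L2.Forms

/-!
# S16, l = 2 block: the norm of a form whose translates are congruent to known functions (helper1)
-/

namespace Fermat.Agent.H1.S16L2

open UpperHalfPlane hiding I
open Function Complex CongruenceSubgroup SlashInvariantForm
open scoped MatrixGroups ModularForm Real Manifold

local notation "𝕢" => Function.Periodic.qParam

/-- If `A` is `Nice 1` with 2-integral q-expansion, then its expansion with respect to the period
`p` is 2-integral as well. -/
lemma qExpansion_nat_period_mem_intSeries {A : ℍ → ℂ} (hA : Nice 1 A)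
    (hAint : qExpansion 1 A ∈ intSeries) (p : ℕ) (hp : 0 < p) :
    qExpansion (p : ℝ) A ∈ intSeries := by
  intro n
  rw [hA.coeff_nat_period p hp]
  split_ifs
  · exact hAint _
  · exact twoIntegral.zero_mem

/-- Passing from a congruence of expansions with respect to the period `p` to a congruence of
`q`-expansions, for 1-periodic functions. -/
lemma congrTwoInt_one_of_nat_period {N A : ℍ → ℂ} (hN : Nice 1 N) (hA : Nice 1 A) (p : ℕ)
    (hp : 0 < p) (h : CongrTwoInt (qExpansion (p : ℝ) N) (qExpansion (p : ℝ) A)) :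
    CongrTwoInt (qExpansion 1 N) (qExpansion 1 A) := by
  refine congrTwoInt_of_coeff fun n => ?_
  obtain ⟨r, hr, e⟩ := h.coeff (p * n)
  refine ⟨r, hr, ?_⟩
  simpa only [hN.coeff_nat_period p hp, hA.coeff_nat_period p hp, if_pos (dvd_mul_right p n),
    Nat.mul_div_cancel_left _ hp] using e

/-- **Norm machine.** Let `N = ∏ i ∈ s, F i` be 1-periodic, where each `F i` is `p`-periodic and
congruent modulo 2 (as an expansion in `e(z/p)`) to a 1-periodic function `A i` with 2-integral
q-expansion. Then `N ≡ ∏ A i mod 2` as q-expansions. -/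
theorem prod_congr_machine {ι : Type*} (s : Finset ι) (F A : ι → ℍ → ℂ) (p : ℕ) (hp : 0 < p)
    (hN : Nice 1 (∏ i ∈ s, F i))
    (hA : ∀ i ∈ s, Nice 1 (A i)) (hAint : ∀ i ∈ s, qExpansion 1 (A i) ∈ intSeries)
    (hF : ∀ i ∈ s, Nice (p : ℝ) (F i))
    (hcongr : ∀ i ∈ s, CongrTwoInt (qExpansion (p : ℝ) (F i)) (qExpansion (p : ℝ) (A i))) :
    CongrTwoInt (qExpansion 1 (∏ i ∈ s, F i)) (∏ i ∈ s, qExpansion 1 (A i)) := by
  have hp' : (0 : ℝ) < p := by exact_mod_cast hp
  have hAp : ∀ i ∈ s, Nice (p : ℝ) (A i) := fun i hi => (hA i hi).of_one p hp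
  have h1 : CongrTwoInt (qExpansion (p : ℝ) (∏ i ∈ s, F i)) (qExpansion (p : ℝ) (∏ i ∈ s, A i)) := by
    rw [qExpansion_prod hp' s F hF, qExpansion_prod hp' s A hAp]
    exact CongrTwoInt.prod s _ _ hcongr fun i hi =>
      qExpansion_nat_period_mem_intSeries (hA i hi) (hAint i hi) p hp
  have h2 := congrTwoInt_one_of_nat_period hN (Nice.prod s A hA) p hp h1
  rwa [qExpansion_prod one_pos s A hA] at h2

end Fermat.Agent.H1.S16L2
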