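import Fermat.Agent.H1.S16L2.Cosets

/-!
# S16, l = 2 block: coefficient data of the translates of `H` (helper1)
-/

namespace Fermat.Agent.H1.S16L2

open UpperHalfPlane hiding I
open Function Complex CongruenceSubgroup SlashInvariantForm
open scoped MatrixGroups ModularForm Real Manifold

local notation "𝕢" => Function.Periodic.qParam

/-- Coefficient data of a translate `K` of `H`: constant term `s + 4 e` with `e` 2-integral, higher
coefficients in `8 𝒪`. -/
structure TransData (p : ℕ) (s : ℤ) (K : ℍ → ℂ) (e : ℂ) : Prop where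
  he : e ∈ twoIntegral
  nice : Nice (p : ℝ) K
  c0 : PowerSeries.coeff 0 (qExpansion (p : ℝ) K) = s + 4 * e
  cn : ∀ n, 1 ≤ n → ∃ r ∈ twoIntegral, PowerSeries.coeff n (qExpansion (p : ℝ) K) = 8 * r

lemma transData_self (p : ℕ) [NeZero p] (H : ModularForm (Gamma0 p) 2) (a : ℕ → ℤ)
    (ha : ∀ n, PowerSeries.coeff n (qExpansion 1 (⇑H)) = (a n : ℂ))
    (h8 : ∀ n, 1 ≤ n → (8 : ℤ) ∣ a n) : TransData p (a 0) (⇑H) 0 := by
  have hp : 0 < p := Nat.pos_of_ne_zero (NeZero.ne p)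
  have hN := nice_one_of_modularForm p H
  refine ⟨twoIntegral.zero_mem, hN.of_one p hp, ?_, ?_⟩
  · rw [hN.coeff_nat_period p hp, if_pos (dvd_zero p), Nat.zero_div, ha]
    ring
  · intro n hn
    rw [hN.coeff_nat_period p hp]
    split_ifs with hpn
    · have hm : 1 ≤ n / p := Nat.div_pos (Nat.le_of_dvd hn hpn) hp
      obtain ⟨t, ht⟩ := h8 (n / p) hm
      exact ⟨t, intCast_mem_twoIntegral t, by rw [ha, ht]; push_cast; ring⟩
    · exact ⟨0, twoIntegral.zero_mem, by ring⟩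

lemma transData_conj (hC : ConjStatement) (p : ℕ) (hp : p.Prime) (hp4 : p % 4 = 3)
    (H : ModularForm (Gamma0 p) 2) (a : ℕ → ℤ)
    (ha : ∀ n, PowerSeries.coeff n (qExpansion 1 (⇑H)) = (a n : ℂ))
    (h8 : ∀ n, 1 ≤ n → (8 : ℤ) ∣ a n) (j : ℤ) :
    ∃ e, TransData p (a 0) (⇑H ∣[(2 : ℤ)] (ModularGroup.S * ModularGroup.T ^ j)) e := by
  have hp0 : 0 < p := hp.pos
  have hp' : (0 : ℝ) < p := by exact_mod_cast hp0
  have hpC : (p : ℂ) ≠ 0 := by exact_mod_cast hp0.ne'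
  have hpodd : Odd p := by
    rw [Nat.odd_iff]; omega
  set K : ℍ → ℂ := ⇑H ∣[(2 : ℤ)] (ModularGroup.S * ModularGroup.T ^ j) with hK
  set ζ : ℂ := cexp (2 * π * I * j / p) with hζ
  have hζp : ζ ^ p = 1 := by
    rw [hζ, ← Complex.exp_nat_mul]
    have : (p : ℂ) * (2 * π * I * j / p) = j * (2 * π * I) := by field_simp
    rw [this, Complex.exp_int_mul_two_pi_mul_I]
  have hζmem : ∀ n : ℕ, ζ ^ n ∈ twoIntegral := fun n =>
    twoIntegral.pow_mem (rootOfUnity_mem_twoIntegral hp0 hζp) n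
  set c : ℕ → ℂ := fun n => -(p : ℂ)⁻¹ * (a (p * n) : ℂ) * ζ ^ n with hc
  have hsum : ∀ τ : ℍ, HasSum (fun m ↦ c m • 𝕢 (p : ℝ) τ ^ m) (K τ) := by
    intro τ
    have := hC p hp H j τ
    convert this using 2 with n
    rw [hc, smul_eq_mul, ha]
    simp only [Function.Periodic.qParam, hζ, ← Complex.exp_nat_mul]
    rw [mul_assoc, ← Complex.exp_add]
    congr 2
    push_cast
    field_simp
    ring
  have hol : MDiff K := by
    have := ModularFormClass.holo (ModularForm.translate H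
      ((ModularGroup.S * ModularGroup.T ^ j : SL(2, ℤ)) : GL (Fin 2) ℝ))
    rw [ModularForm.coe_translate] at this
    exact this
  have hnice : Nice (p : ℝ) K := Nice.of_hasSum hp' hol hsum
  have hcoeff : ∀ n, PowerSeries.coeff n (qExpansion (p : ℝ) K) = c n :=
    fun n => hnice.coeff_eq hp' hsum n
  have hpinv : ((p : ℂ))⁻¹ ∈ twoIntegral := inv_odd_mem_twoIntegral hpodd
  -- the constant `e = -s (p+1)/4 / p`
  obtain ⟨u, hu⟩ : ∃ u : ℕ, p + 1 = 4 * u := ⟨(p + 1) / 4, by omega⟩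
  refine ⟨-(a 0 : ℂ) * u * (p : ℂ)⁻¹, ⟨?_, hnice, ?_, ?_⟩⟩
  · exact twoIntegral.mul_mem (twoIntegral.mul_mem (twoIntegral.neg_mem (intCast_mem_twoIntegral _))
      (by simpa using intCast_mem_twoIntegral (u : ℤ))) hpinv
  · rw [hcoeff, hc]
    have hu' : (p : ℂ) + 1 = 4 * u := by exact_mod_cast hu
    simp only [mul_zero, pow_zero, mul_one]
    field_simp
    linear_combination (-(a 0 : ℂ)) * hu'
  · intro n hn
    obtain ⟨t, ht⟩ := h8 (p * n) (Nat.one_le_iff_ne_zero.mpr (Nat.mul_ne_zero hp0.ne' (by omega)))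
    refine ⟨-(p : ℂ)⁻¹ * t * ζ ^ n, twoIntegral.mul_mem (twoIntegral.mul_mem
      (twoIntegral.neg_mem hpinv) (intCast_mem_twoIntegral t)) (hζmem n), ?_⟩
    rw [hcoeff, hc]
    simp only [ht]
    push_cast
    ring

end Fermat.Agent.H1.S16L2
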