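import Fermat.Agent.H1.S16L2.NormMachine

/-!
# S16, l = 2 block: expansions of the translates of `Z = (H - s F2) / 4` (helper1)
-/

namespace Fermat.Agent.H1.S16L2

open UpperHalfPlane hiding I
open Function Complex CongruenceSubgroup SlashInvariantForm
open scoped MatrixGroups ModularForm Real Manifold

local notation "𝕢" => Function.Periodic.qParam

lemma coeff_zero_gPrime : PowerSeries.coeff 0 gPrime = 0 := by
  simp [gPrime]

/-- The function `(F2 - 1) / 12 + e`. -/
noncomputable def shiftG (F2 : ℍ → ℂ) (e : ℂ) : ℍ → ℂ := fun z => (F2 z - 1) / 12 + e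

lemma shiftG_eq (F2 : ℍ → ℂ) (e : ℂ) :
    shiftG F2 e = ((12 : ℂ)⁻¹ • (F2 - (fun _ => (1 : ℂ)))) + (fun _ => e) := by
  ext z
  simp [shiftG, div_eq_inv_mul]

lemma nice_shiftG {F2 : ℍ → ℂ} (hF2 : Nice 1 F2) (e : ℂ) : Nice 1 (shiftG F2 e) := by
  rw [shiftG_eq]
  exact ((hF2.sub (Nice.const 1 1)).smul _).add (Nice.const 1 e)

lemma qExpansion_const (h : ℝ) (c : ℂ) : qExpansion h (fun _ : ℍ => c) = PowerSeries.C c := by
  have h1 : (fun _ : ℍ => c) = c • (1 : ℍ → ℂ) := by ext; simp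
  rw [h1, qExpansion_smul ((Nice.one 1).analyticAt one_pos |> fun _ => by
    have : cuspFunction h (1 : ℍ → ℂ) = 1 := by
      ext q
      rcases eq_or_ne q 0 with rfl | hq
      · simpa [cuspFunction, Periodic.cuspFunction] using! tendsto_const_nhds.limUnder_eq
      · simp [cuspFunction, Periodic.cuspFunction_eq_of_nonzero h _ hq]
    rw [this]
    exact analyticAt_const), qExpansion_one]
  ext n
  simp [PowerSeries.coeff_C, PowerSeries.coeff_one]

lemma coeff_F2exp (n : ℕ) :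
    PowerSeries.coeff n ((1 + 12 * gPrime).map (Int.castRingHom ℂ))
      = (if n = 0 then 1 else 0) + 12 * ((PowerSeries.coeff n gPrime : ℤ) : ℂ) := by
  have h12 : PowerSeries.coeff n ((12 : PowerSeries ℤ) * gPrime)
      = 12 * PowerSeries.coeff n gPrime := by
    rw [show (12 : PowerSeries ℤ) = PowerSeries.C (12 : ℤ) from (map_ofNat _ 12).symm,
      PowerSeries.coeff_C_mul]
  rw [PowerSeries.coeff_map, map_add, h12, PowerSeries.coeff_one, eq_intCast]
  split_ifs <;> push_cast <;> ring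

lemma qExpansion_shiftG {F2 : ℍ → ℂ} (hF2 : Nice 1 F2)
    (hF2exp : qExpansion 1 F2 = (1 + 12 * gPrime).map (Int.castRingHom ℂ)) (e : ℂ) :
    qExpansion 1 (shiftG F2 e) = gPrime.map (Int.castRingHom ℂ) + PowerSeries.C e := by
  rw [shiftG_eq, qExpansion_add (((hF2.sub (Nice.const 1 1)).smul _).analyticAt one_pos)
    ((Nice.const 1 e).analyticAt one_pos),
    qExpansion_smul ((hF2.sub (Nice.const 1 1)).analyticAt one_pos),
    qExpansion_sub (hF2.analyticAt one_pos) ((Nice.const 1 1).analyticAt one_pos),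
    qExpansion_const, qExpansion_const, hF2exp]
  ext n
  rw [map_add, PowerSeries.coeff_smul, map_sub, coeff_F2exp, map_add, PowerSeries.coeff_map,
    PowerSeries.coeff_C, PowerSeries.coeff_C, eq_intCast, smul_eq_mul]
  split_ifs <;> ring

lemma shiftG_mem_intSeries {F2 : ℍ → ℂ} (hF2 : Nice 1 F2)
    (hF2exp : qExpansion 1 F2 = (1 + 12 * gPrime).map (Int.castRingHom ℂ)) {e : ℂ}
    (he : e ∈ twoIntegral) : qExpansion 1 (shiftG F2 e) ∈ intSeries := by
  rw [qExpansion_shiftG hF2 hF2exp]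
  intro n
  rw [map_add, PowerSeries.coeff_map, PowerSeries.coeff_C]
  refine twoIntegral.add_mem (intCast_mem_twoIntegral _) ?_
  split_ifs
  · exact he
  · exact twoIntegral.zero_mem

/-- **Uniform translate lemma.** -/
theorem translate_congr (p : ℕ) (hp : 0 < p) (K F2 : ℍ → ℂ) (s : ℤ) (hs : Odd s)
    (hK : Nice (p : ℝ) K) (hF2 : Nice 1 F2)
    (hF2exp : qExpansion 1 F2 = (1 + 12 * gPrime).map (Int.castRingHom ℂ))
    (e : ℂ)
    (hK0 : PowerSeries.coeff 0 (qExpansion (p : ℝ) K) = s + 4 * e)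
    (hKn : ∀ n, 1 ≤ n → ∃ r ∈ twoIntegral, PowerSeries.coeff n (qExpansion (p : ℝ) K) = 8 * r) :
    Nice (p : ℝ) (fun z => (K z - s * F2 z) / 4) ∧
      CongrTwoInt (qExpansion (p : ℝ) (fun z => (K z - s * F2 z) / 4))
        (qExpansion (p : ℝ) (shiftG F2 e)) := by
  have hp' : (0 : ℝ) < p := by exact_mod_cast hp
  have hF2p : Nice (p : ℝ) F2 := hF2.of_one p hp
  have hfun : (fun z => (K z - s * F2 z) / 4) = (4 : ℂ)⁻¹ • (K - (s : ℂ) • F2) := by
    ext z
    simp [div_eq_inv_mul]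
  have hnice : Nice (p : ℝ) (fun z => (K z - s * F2 z) / 4) := by
    rw [hfun]
    exact (hK.sub (hF2p.smul _)).smul _
  refine ⟨hnice, congrTwoInt_of_coeff fun n => ?_⟩
  have hcoef : PowerSeries.coeff n (qExpansion (p : ℝ) (fun z => (K z - s * F2 z) / 4))
      = (PowerSeries.coeff n (qExpansion (p : ℝ) K)
          - s * PowerSeries.coeff n (qExpansion (p : ℝ) F2)) / 4 := by
    rw [hfun, qExpansion_smul ((hK.sub (hF2p.smul _)).analyticAt hp'),
      qExpansion_sub (hK.analyticAt hp') ((hF2p.smul _).analyticAt hp'),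
      qExpansion_smul (hF2p.analyticAt hp')]
    simp only [PowerSeries.coeff_smul, map_sub, smul_eq_mul]
    ring
  rw [hcoef, hF2.coeff_nat_period p hp, (nice_shiftG hF2 e).coeff_nat_period p hp,
    qExpansion_shiftG hF2 hF2exp, hF2exp]
  rcases Nat.eq_zero_or_pos n with rfl | hn
  · refine ⟨0, twoIntegral.zero_mem, ?_⟩
    rw [if_pos (dvd_zero p), if_pos (dvd_zero p), Nat.zero_div, hK0, coeff_F2exp, map_add,
      PowerSeries.coeff_map, PowerSeries.coeff_C, coeff_zero_gPrime, if_pos rfl, if_pos rfl,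
      eq_intCast]
    push_cast
    ring
  · obtain ⟨r, hr, hKr⟩ := hKn n hn
    rw [hKr]
    by_cases hpn : p ∣ n
    · have hm : 1 ≤ n / p := Nat.div_pos (Nat.le_of_dvd hn hpn) hp
      have hm0 : n / p ≠ 0 := by omega
      obtain ⟨t, ht⟩ := hs
      refine ⟨r - (3 * t + 2) * ((PowerSeries.coeff (n / p) gPrime : ℤ) : ℂ),
        twoIntegral.sub_mem hr (twoIntegral.mul_mem ?_ (intCast_mem_twoIntegral _)), ?_⟩
      · have : ((3 * t + 2 : ℤ) : ℂ) ∈ twoIntegral := intCast_mem_twoIntegral _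
        simpa using this
      · rw [if_pos hpn, if_pos hpn, coeff_F2exp, map_add, PowerSeries.coeff_map,
          PowerSeries.coeff_C, if_neg hm0, if_neg hm0, eq_intCast, ht]
        push_cast
        ring
    · refine ⟨r, hr, ?_⟩
      rw [if_neg hpn, if_neg hpn]
      ring

end Fermat.Agent.H1.S16L2
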