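import Fermat.Agent.H1.S16L2.Final
import Fermat.Agent.H41.EisThree
import Fermat.Agent.H69.S16LevelThree
import Fermat.Agent.H16.S16Conj

/-!
# S16, upper bound at `l = 2`, unconditional (helper1; inputs by helper41, helper69, helper16)
-/

namespace Fermat.Agent.H1.S16L2

/-- **No weight-2 form on `Γ₀(p)`, `p ≡ 3 mod 4`, `p ≥ 5`, with integer q-expansion is congruent
to an odd constant modulo 8.** -/
theorem noUnitModEightStatement : NoUnitModEightStatement :=
  noUnitModEight Fermat.Agent.H41.eisThreeStatement
    (Fermat.Agent.H69.L3.levelThree Fermat.Agent.H41.eisThreeStatement)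
    Fermat.Agent.H16.conjStatement

end Fermat.Agent.H1.S16L2
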